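import Fermat.Agent.SW2.X20
import Fermat.Agent.SmallLevel.Reducible35
import Fermat.Agent.Local.Frey

set_option autoImplicit false

/-!
A curve with square discriminant has irreducible mod `5` representation; in particular the Frey curve.
-/

noncomputable section

namespace FLTAgent.SW2

open WeierstrassCurve

lemma not_isSquare_five : ¬ IsSquare (5 : ℚ) := by
  rw [show (5 : ℚ) = ((5 : ℕ) : ℚ) by norm_num, Rat.isSquare_natCast_iff]
  rintro ⟨r, hr⟩
  have : r ≤ 5 := by nlinarith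
  interval_cases r <;> omega

/-- square discriminant and a stable line of five-torsion are incompatible -/
theorem modFive_irreducible_of_isSquare {W : WeierstrassCurve ℤ} (hΔ : W.Δ ≠ 0)
    (hsq : IsSquare W.Δ) : W.ModRepIsIrreducible 5 := by
  by_contra hred
  obtain ⟨D, s, hD, hs, h4, hΔ5⟩ := FLTAgent.SmallLevel.exists_five_data hΔ hred
  obtain ⟨δ, hδ⟩ := hsq
  have hδ' : (W.Δ : ℚ) = (δ : ℚ) * δ := by exact_mod_cast congrArg (fun z : ℤ => (z : ℚ)) hδ
  have hs4 : s ^ 2 + 4 * s - 1 ≠ 0 := fun h =>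
    not_isSquare_five ⟨s + 2, by linear_combination -h⟩
  have hrel : (1728 : ℚ) * W.Δ = (W.c₄ : ℚ) ^ 3 - (W.c₆ : ℚ) ^ 2 := by
    exact_mod_cast congrArg (fun z : ℤ => (z : ℚ)) W.c_relation
  have h6 : (W.c₆ : ℚ) ^ 2 = D ^ 3 * (s ^ 2 + 22 * s + 125) * (s ^ 2 + 4 * s - 1) ^ 2 := by
    rw [hΔ5, h4] at hrel
    linear_combination hrel
  refine hs (x20_points (y := (δ : ℚ) * W.c₆ / (D ^ 3 * (s ^ 2 + 4 * s - 1))) ?_)
  rw [div_pow, eq_div_iff (pow_ne_zero 2 (mul_ne_zero (pow_ne_zero 3 hD) hs4)), mul_pow (δ : ℚ), h6]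
  have e : (δ : ℚ) ^ 2 = D ^ 3 * s := by rw [pow_two, ← hδ', hΔ5]
  rw [e]
  ring

theorem freyCurveInt_isSquare_Δ (P : FreyPackage) : IsSquare P.freyCurveInt.Δ := by
  rw [← Rat.isSquare_intCast_iff]
  refine ⟨((P.a * P.b * P.c : ℤ) : ℚ) ^ P.p / 2 ^ 4, ?_⟩
  have h := congrArg (fun z : ℤ => (z : ℚ)) (FLTAgent.Local.freyCurveInt_Δ P)
  push_cast at h
  field_simp
  push_cast
  linear_combination h

/-- the mod `5` representation of the Frey curve is irreducible -/
theorem frey_modFive_irreducible (P : FreyPackage) : P.freyCurveInt.ModRepIsIrreducible 5 :=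
  modFive_irreducible_of_isSquare (FLTAgent.Local.freyCurveInt_Δ_ne_zero P) (freyCurveInt_isSquare_Δ P)

end FLTAgent.SW2

end
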