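import Fermat.Agent.SmallLevel.X15Descent

set_option autoImplicit false

/-!
The descent for `y² = t (t² + 22 t + 125)`.
-/

namespace FLTAgent.SW2

open FLTAgent.SmallLevel

lemma square_of_coprime_nonneg {x y z : ℤ} (hx : 0 ≤ x) (hc : IsCoprime x y) (h : x * y = z ^ 2) :
    ∃ a : ℤ, x = a ^ 2 := by
  obtain ⟨a, ha | ha⟩ := Int.sq_of_gcd_eq_one (Int.isCoprime_iff_gcd_eq_one.1 hc) h
  · exact ⟨a, ha⟩
  · exact ⟨0, by have := sq_nonneg a; have : x = 0 := by omega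
                 simp [this]⟩

lemma fourth_of_coprime_pos {x y b : ℤ} (hx : 0 < x) (hy : 0 < y) (hc : IsCoprime x y)
    (h : x * y = b ^ 4) : ∃ t : ℤ, x = t ^ 4 := by
  obtain ⟨c, rfl⟩ := square_of_coprime_nonneg (z := b ^ 2) hx.le hc (by rw [h]; ring)
  obtain ⟨d, rfl⟩ := square_of_coprime_nonneg (z := b ^ 2) hy.le hc.symm (by rw [mul_comm, h]; ring)
  have hcd : |c| * |d| = b ^ 2 := by
    rw [← abs_mul, ← abs_of_nonneg (sq_nonneg b)]
    exact (sq_eq_sq_iff_abs_eq_abs _ _).1 (by rw [mul_pow, h]; ring)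
  have hc' : IsCoprime |c| |d| := ((IsCoprime.pow_iff two_pos two_pos).1 hc).abs_abs
  obtain ⟨t, ht⟩ := square_of_coprime_nonneg (abs_nonneg c) hc' hcd
  exact ⟨t, by rw [← sq_abs, ht]; ring⟩

lemma quartic_mod {u e v : ℤ} (hu : u % 2 = 0) (he : e % 2 = 1)
    (h : v ^ 2 = u ^ 4 + 22 * u ^ 2 * e ^ 2 + 125 * e ^ 4) : False := by
  have key : ∀ a b c : ZMod 8,
      c ^ 2 ≠ (2 * a) ^ 4 + 22 * (2 * a) ^ 2 * (2 * b + 1) ^ 2 + 125 * (2 * b + 1) ^ 4 := by decide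
  have h' := congrArg (fun z : ℤ => (z : ZMod 8)) h
  obtain ⟨a, rfl⟩ : ∃ a, u = 2 * a := ⟨u / 2, by omega⟩
  obtain ⟨b, rfl⟩ : ∃ b, e = 2 * b + 1 := ⟨e / 2, by omega⟩
  push_cast at h'
  exact key _ _ _ h'

lemma quartic_no_odd {u e v : ℤ} (hc : IsCoprime u e) (hu : u % 2 = 1) (he : e % 2 = 1)
    (h : v ^ 2 = u ^ 4 + 22 * u ^ 2 * e ^ 2 + 125 * e ^ 4) : False := by
  obtain ⟨a, rfl⟩ : ∃ a, u = 2 * a + 1 := ⟨u / 2, by omega⟩
  obtain ⟨b, rfl⟩ : ∃ b, e = 2 * b + 1 := ⟨e / 2, by omega⟩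
  obtain ⟨w, rfl⟩ : (2 : ℤ) ∣ v := by
    have h1 := congrArg (fun z : ℤ => (z : ZMod 2)) h
    have key : ∀ x y z : ZMod 2, z ^ 2 = (2 * x + 1) ^ 4 + 22 * (2 * x + 1) ^ 2 * (2 * y + 1) ^ 2
        + 125 * (2 * y + 1) ^ 4 → z = 0 := by decide
    push_cast at h1
    exact (ZMod.intCast_zmod_eq_zero_iff_dvd _ _).1 (key _ _ _ h1)
  obtain ⟨m, hm⟩ : ∃ m : ℤ, a * (a + 1) + 11 * (b * (b + 1)) = 2 * m := by
    obtain ⟨s, hs⟩ := (Int.even_mul_succ_self a).two_dvd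
    obtain ⟨t, ht⟩ := (Int.even_mul_succ_self b).two_dvd
    exact ⟨s + 11 * t, by rw [hs, ht]; ring⟩
  set x := (2 * b + 1) ^ 2 with hx
  have hcop : IsCoprime x (4 * m + 6) := by
    refine IsCoprime.pow_left ?_
    have h1 : IsCoprime (2 * b + 1) ((2 * a + 1) ^ 2 + (2 * b + 1) * (11 * (2 * b + 1))) :=
      (hc.symm.pow_right (n := 2)).add_mul_left_right _
    rw [show (2 * a + 1) ^ 2 + (2 * b + 1) * (11 * (2 * b + 1)) = 2 * (4 * m + 6) by
      linear_combination 4 * hm] at h1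
    exact h1.of_mul_right_right
  have hodd : x % 2 = 1 := by
    have : x = 2 * (2 * b ^ 2 + 2 * b) + 1 := by rw [hx]; ring
    omega
  have hh : x * x + (4 * m + 6) * (4 * m + 6) = w * w := by
    have e1 : (2 * a + 1) ^ 2 + 11 * x = 2 * (4 * m + 6) := by
      rw [hx]; linear_combination 4 * hm
    refine mul_left_cancel₀ (show (4 : ℤ) ≠ 0 by norm_num) ?_
    linear_combination -h - ((2 * a + 1) ^ 2 + 11 * x + 2 * (4 * m + 6)) * e1
  obtain ⟨p, q, -, e2, -, -, hpq⟩ := triple_param hh hcop hodd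
  have : (p * q) % 2 = 0 := by
    rcases hpq with ⟨e, -⟩ | ⟨-, e⟩ <;> rw [Int.mul_emod, e] <;> simp
  have e3 : 2 * p * q = 2 * (p * q) := by ring
  omega

lemma five_not_dvd {u a b : ℤ} (hab : IsCoprime a b)
    (h : u ^ 2 + 11 * a ^ 2 * b ^ 2 + b ^ 4 = a ^ 4) : ¬ (5 : ℤ) ∣ u := by
  intro hu
  have key : ∀ x y : ZMod 5, 11 * x ^ 2 * y ^ 2 + y ^ 4 = x ^ 4 → x = 0 ∧ y = 0 := by decide
  have h' := congrArg (fun z : ℤ => (z : ZMod 5)) h
  push_cast at h'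
  rw [(ZMod.intCast_zmod_eq_zero_iff_dvd u 5).2 hu, zero_pow two_ne_zero, zero_add] at h'
  obtain ⟨ha, hb⟩ := key _ _ h'
  exact absurd (hab.isUnit_of_dvd' ((ZMod.intCast_zmod_eq_zero_iff_dvd a 5).1 ha)
    ((ZMod.intCast_zmod_eq_zero_iff_dvd b 5).1 hb)) (by decide)

/-- the descent -/
lemma quartic_trivial : ∀ (n : ℕ) (u e v : ℤ), e.natAbs = n → IsCoprime u e →
    v ^ 2 = u ^ 4 + 22 * u ^ 2 * e ^ 2 + 125 * e ^ 4 → u * e = 0 := by
  intro n
  induction n using Nat.strong_induction_on with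
  | _ n IH =>
  intro u e v hn hcop hv
  by_contra h0
  have hu0 : u ≠ 0 := fun h => h0 (by simp [h])
  have he0 : e ≠ 0 := fun h => h0 (by simp [h])
  rcases Int.emod_two_eq u with hu | hu
  · rcases Int.emod_two_eq e with he | he
    · exact absurd (hcop.isUnit_of_dvd' (Int.dvd_of_emod_eq_zero hu) (Int.dvd_of_emod_eq_zero he))
        (by decide)
    · exact quartic_mod hu he hv
  rcases Int.emod_two_eq e with he | he
  swap
  · exact quartic_no_odd hcop hu he hv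
  obtain ⟨e', he'⟩ := Int.dvd_of_emod_eq_zero he
  have hXodd : (u ^ 2 + 11 * e ^ 2) % 2 = 1 := by
    obtain ⟨u', rfl⟩ : ∃ u', u = 2 * u' + 1 := ⟨u / 2, by omega⟩
    have : (2 * u' + 1) ^ 2 + 11 * e ^ 2 = 2 * (2 * u' ^ 2 + 2 * u' + 22 * e' ^ 2) + 1 := by
      rw [he']; ring
    omega
  have hcX : IsCoprime (u ^ 2 + 11 * e ^ 2) (2 * e ^ 2) := by
    refine IsCoprime.mul_right ?_ ?_
    · refine Int.isCoprime_iff_gcd_eq_one.2 ?_
      rw [Int.gcd_comm]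
      refine Nat.coprime_two_left.2 ?_
      rw [Nat.odd_iff]; omega
    · refine IsCoprime.pow_right ?_
      rw [show u ^ 2 + 11 * e ^ 2 = u ^ 2 + e * (11 * e) by ring]
      exact (hcop.pow_left (m := 2)).add_mul_left_left _
  obtain ⟨p, q, eX, eY, -, hpq, -⟩ :=
    triple_param (z := v) (by linear_combination -hv) hcX hXodd
  have hprod : p * q = e ^ 2 := mul_left_cancel₀ two_ne_zero (by linear_combination -eY)
  obtain ⟨p', q', hp', hpq', ep', hX'⟩ : ∃ p' q' : ℤ, 0 ≤ p' ∧ IsCoprime p' q' ∧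
      p' * q' = e ^ 2 ∧ u ^ 2 + 11 * e ^ 2 = p' ^ 2 - q' ^ 2 := by
    rcases le_or_gt 0 p with hp | hp
    · exact ⟨p, q, hp, hpq, hprod, eX⟩
    · exact ⟨-p, -q, by omega, hpq.neg_neg, by rw [neg_mul_neg, hprod],
        by rw [neg_sq, neg_sq, eX]⟩
  have hp'0 : p' ≠ 0 := fun h => he0 (by
    rw [h, zero_mul] at ep'
    exact pow_eq_zero_iff two_ne_zero |>.1 ep'.symm)
  have hq' : 0 ≤ q' := nonneg_of_mul_nonneg_right (ep' ▸ sq_nonneg e) (by omega)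
  obtain ⟨a, rfl⟩ := square_of_coprime_nonneg hp' hpq' ep'
  obtain ⟨b, rfl⟩ := square_of_coprime_nonneg hq' hpq'.symm (by rw [mul_comm]; exact ep')
  have hab : IsCoprime a b := (IsCoprime.pow_iff two_pos two_pos).1 hpq'
  have habe : (a * b).natAbs = e.natAbs := Int.natAbs_eq_iff_sq_eq.2 (by rw [mul_pow]; exact ep')
  have key : u ^ 2 + 11 * a ^ 2 * b ^ 2 + b ^ 4 = a ^ 4 := by
    linear_combination hX' + 11 * ep'
  have hb : b % 2 = 0 := by
    rcases Int.emod_two_eq b with hb | hb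
    · exact hb
    exfalso
    rcases Int.emod_two_eq a with ha | ha
    · have k4 : ∀ x y z : ZMod 4,
          z ^ 2 + 11 * (2 * x) ^ 2 * (2 * y + 1) ^ 2 + (2 * y + 1) ^ 4 ≠ (2 * x) ^ 4 := by decide
      obtain ⟨a', rfl⟩ : ∃ a', a = 2 * a' := ⟨a / 2, by omega⟩
      obtain ⟨b', rfl⟩ : ∃ b', b = 2 * b' + 1 := ⟨b / 2, by omega⟩
      have h' := congrArg (fun z : ℤ => (z : ZMod 4)) key
      push_cast at h'
      exact k4 _ _ _ h'
    · have h1 : (a * b) % 2 = 1 := by rw [Int.mul_emod, ha, hb]; rfl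
      have h2 : (a * b).natAbs % 2 = e.natAbs % 2 := by rw [habe]
      omega
  obtain ⟨b', rfl⟩ := Int.dvd_of_emod_eq_zero hb
  have ha0 : a ≠ 0 := fun h => hp'0 (by rw [h]; ring)
  have hb0 : b' ≠ 0 := fun h => he0 (by
    rw [h] at habe
    simpa using habe.symm)
  have haodd : a % 2 = 1 := by
    rcases Int.emod_two_eq a with ha | ha
    · exact absurd (hab.isUnit_of_dvd' (Int.dvd_of_emod_eq_zero ha) (dvd_mul_right 2 b')) (by decide)
    · exact ha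
  have hY : 0 < a ^ 2 - 22 * b' ^ 2 := by
    have h1 : 44 * (a ^ 2 * b' ^ 2) ≤ a ^ 2 * a ^ 2 := by nlinarith [sq_nonneg (b' ^ 2), sq_nonneg u]
    have h2 : 0 < b' ^ 2 := by positivity
    have h3 : 0 < a ^ 2 := by positivity
    nlinarith
  obtain ⟨A, hA⟩ : ∃ A : ℤ, a ^ 2 - 22 * b' ^ 2 - u = 2 * A := by
    obtain ⟨a', rfl⟩ : ∃ a', a = 2 * a' + 1 := ⟨a / 2, by omega⟩
    exact ⟨2 * a' ^ 2 + 2 * a' - 11 * b' ^ 2 - u / 2, by
      have : u = 2 * (u / 2) + 1 := by omega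
      linear_combination -this⟩
  set B := A + u with hB
  have hAB : A * B = 125 * b' ^ 4 := by
    rw [hB]
    refine mul_left_cancel₀ (show (4 : ℤ) ≠ 0 by norm_num) ?_
    linear_combination -key - (a ^ 2 - 22 * b' ^ 2 + u + 2 * A) * hA
  have hsum : a ^ 2 - 22 * b' ^ 2 = A + B := by rw [hB]; linear_combination hA
  have hpos : 0 < A ∧ 0 < B := by
    have h1 : 0 < A * B := by rw [hAB]; positivity
    rcases mul_pos_iff.1 h1 with h | h
    · exact h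
    · omega
  have hcopAB : IsCoprime A B := by
    refine isCoprime_of_prime_dvd (fun h => by omega) fun z hz hzA hzB => ?_
    have hzu : z ∣ u := by
      have : u = B - A := by rw [hB]; ring
      rw [this]; exact dvd_sub hzB hzA
    have hzY : z ∣ a ^ 2 - 22 * b' ^ 2 := hsum ▸ dvd_add hzA hzB
    have hzb : ¬ z ∣ b' := fun h => by
      have : z ∣ a ^ 2 := by
        have := dvd_add hzY ((dvd_pow h two_ne_zero).mul_left 22)
        rwa [sub_add_cancel] at this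
      exact hz.not_unit (hab.isUnit_of_dvd' (hz.dvd_of_dvd_pow this) (h.mul_left 2))
    have h125 : z ∣ 125 * b' ^ 4 := hAB ▸ hzA.mul_right B
    rcases hz.dvd_or_dvd h125 with h | h
    · have h5 : z ∣ 5 := hz.dvd_of_dvd_pow (n := 3) (by norm_num; exact h)
      exact five_not_dvd hab key ((Prime.associated_of_dvd hz (by norm_num) h5).symm.dvd.trans hzu)
    · exact hzb (hz.dvd_of_dvd_pow h)
  obtain ⟨s, t, hst, hY'⟩ : ∃ s t : ℤ, IsCoprime s t ∧ (s * t) ^ 4 = b' ^ 4 ∧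
      a ^ 2 - 22 * b' ^ 2 = s ^ 4 + 125 * t ^ 4 := by
    have aux : ∀ X Y : ℤ, 0 < X → 0 < Y → IsCoprime X Y → X * Y = 125 * b' ^ 4 → (5 : ℤ) ∣ X →
        ∃ s t : ℤ, IsCoprime s t ∧ (s * t) ^ 4 = b' ^ 4 ∧ X + Y = s ^ 4 + 125 * t ^ 4 := by
      intro X Y hX hY' hXY hprod' h5
      have h5Y : IsCoprime (5 : ℤ) Y := hXY.of_isCoprime_of_dvd_left h5
      obtain ⟨X', rfl⟩ : (125 : ℤ) ∣ X := by
        have : (5 : ℤ) ^ 3 ∣ X := (h5Y.pow_left (m := 3)).dvd_of_dvd_mul_right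
          ⟨b' ^ 4, by rw [hprod']; norm_num⟩
        simpa using this
      have hc' : IsCoprime X' Y := hXY.of_mul_left_right
      have he4 : X' * Y = b' ^ 4 := by linarith
      obtain ⟨t, rfl⟩ := fourth_of_coprime_pos (by linarith) hY' hc' he4
      obtain ⟨s, rfl⟩ := fourth_of_coprime_pos hY' (by linarith) hc'.symm (by rw [mul_comm]; exact he4)
      exact ⟨s, t, ((IsCoprime.pow_iff (by norm_num) (by norm_num)).1 hc').symm,
        by rw [← he4]; ring, by ring⟩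
    have h5 : (5 : ℤ) ∣ A ∨ (5 : ℤ) ∣ B :=
      (show Prime (5 : ℤ) by norm_num).dvd_or_dvd ⟨25 * b' ^ 4, by rw [hAB]; ring⟩
    rcases h5 with h | h
    · obtain ⟨s, t, h1, h2, h3⟩ := aux A B hpos.1 hpos.2 hcopAB hAB h
      exact ⟨s, t, h1, h2, hsum.trans h3⟩
    · obtain ⟨s, t, h1, h2, h3⟩ := aux B A hpos.2 hpos.1 hcopAB.symm (by rw [mul_comm]; exact hAB) h
      exact ⟨s, t, h1, h2, hsum.trans ((add_comm _ _).trans h3)⟩
  have hb2 : (s * t) ^ 2 = b' ^ 2 :=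
    (pow_left_inj₀ (sq_nonneg _) (sq_nonneg _) two_ne_zero).1 (by rw [← pow_mul, ← pow_mul]; exact hY'.1)
  have hst0 : s * t ≠ 0 := fun h => hb0 (by
    rw [h] at hb2
    exact pow_eq_zero_iff two_ne_zero |>.1 (by rw [← hb2]; ring))
  have hlt : t.natAbs < e.natAbs := by
    rw [← habe, Int.natAbs_mul, Int.natAbs_mul]
    have h1 : (s * t).natAbs = b'.natAbs := Int.natAbs_eq_iff_sq_eq.2 hb2
    rw [Int.natAbs_mul] at h1
    have h2 : 0 < s.natAbs := Int.natAbs_pos.2 (left_ne_zero_of_mul hst0)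
    have h3 : 0 < a.natAbs := Int.natAbs_pos.2 ha0
    have h4 : 0 < b'.natAbs := Int.natAbs_pos.2 hb0
    have h5 : t.natAbs ≤ b'.natAbs := h1 ▸ Nat.le_mul_of_pos_left _ h2
    have h6 : (2 : ℤ).natAbs = 2 := rfl
    rw [h6]
    nlinarith
  refine hst0 (IH t.natAbs (hn ▸ hlt) s t a rfl hst ?_)
  linear_combination hY'.2 - 22 * hb2

/-- `t (t² + 22 t + 125)` is a square only at `t = 0` -/
theorem x20_points {t y : ℚ} (h : t * (t ^ 2 + 22 * t + 125) = y ^ 2) : t = 0 := by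
  by_contra ht
  have hsq : ∀ r : ℚ, r ≠ 0 → ∀ z : ℚ, r ^ 4 + 22 * r ^ 2 + 125 = z ^ 2 → False := by
    intro r hr z hz
    have hd : (r.den : ℚ) ≠ 0 := Nat.cast_ne_zero.2 r.den_nz
    have hnum : (r.num : ℚ) = r * r.den := (Rat.mul_den_eq_num r).symm
    have hz' : IsSquare (((r.num ^ 4 + 22 * r.num ^ 2 * (r.den : ℤ) ^ 2 + 125 * (r.den : ℤ) ^ 4 : ℤ)) : ℚ) := by
      refine ⟨z * r.den ^ 2, ?_⟩
      push_cast
      rw [hnum]
      linear_combination (r.den : ℚ) ^ 4 * hz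
    obtain ⟨v, hv⟩ := Rat.isSquare_intCast_iff.1 hz'
    have := quartic_trivial _ r.num (r.den : ℤ) v rfl
      (Int.isCoprime_iff_gcd_eq_one.2 r.reduced) (by rw [hv]; ring)
    rcases mul_eq_zero.1 this with e | e
    · exact hr (Rat.num_eq_zero.1 e)
    · exact r.den_nz (by exact_mod_cast e)
  have hQpos : 0 < t ^ 2 + 22 * t + 125 := by nlinarith [sq_nonneg (t + 11)]
  have htpos : 0 < t := by
    rcases lt_or_gt_of_ne ht with h' | h'
    · nlinarith [sq_nonneg y]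
    · exact h'
  have hQ : ∀ x : ℚ, x ≠ 0 → IsSquare x → IsSquare (x ^ 2 + 22 * x + 125) → False := by
    rintro x hx ⟨r, rfl⟩ ⟨z, hz⟩
    refine hsq r (left_ne_zero_of_mul hx) z ?_
    linear_combination hz
  -- `t` or `125 / t` is a square
  obtain ⟨a, d, hd, hcop, rfl⟩ : ∃ a d : ℤ, 0 < d ∧ IsCoprime a d ∧ t = (a : ℚ) / d :=
    ⟨t.num, t.den, by exact_mod_cast t.den_pos, Int.isCoprime_iff_gcd_eq_one.2 t.reduced,
      by exact_mod_cast t.num_div_den.symm⟩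
  have hd' : (d : ℚ) ≠ 0 := Int.cast_ne_zero.2 hd.ne'
  have ha : 0 < a := by
    have := mul_pos htpos (Int.cast_pos (R := ℚ).2 hd)
    rw [div_mul_cancel₀ _ hd'] at this
    exact_mod_cast this
  set Q := a ^ 2 + 22 * a * d + 125 * d ^ 2 with hQdef
  obtain ⟨R, hR⟩ : IsSquare (a * d * Q) := by
    rw [← Rat.isSquare_intCast_iff]
    refine ⟨y * d ^ 2, ?_⟩
    push_cast [hQdef]
    set t0 := (a : ℚ) / d with ht0
    have hat : (a : ℚ) = t0 * d := by rw [ht0]; field_simp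
    rw [hat]
    linear_combination (d : ℚ) ^ 4 * h
  have hcdQ : IsCoprime d (a * Q) := by
    refine hcop.symm.mul_right ?_
    rw [hQdef, show a ^ 2 + 22 * a * d + 125 * d ^ 2 = a ^ 2 + d * (22 * a + 125 * d) by ring]
    exact (hcop.symm.pow_right (n := 2)).add_mul_left_right _
  obtain ⟨e, rfl⟩ := square_of_coprime_nonneg (z := R) hd.le hcdQ (by rw [pow_two, ← hR]; ring)
  obtain ⟨R', hR'⟩ := square_of_sq_mul (γ := e) (P := a * Q) (T := R)
    (fun h => by rw [h] at hd; norm_num at hd) (by rw [pow_two R, ← hR]; ring)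
  have he : (e : ℚ) ≠ 0 := fun h => hd' (by push_cast; rw [h]; ring)
  have hQ' : ((Q : ℤ) : ℚ) =
      (e : ℚ) ^ 4 * (((a : ℚ) / (e : ℚ) ^ 2) ^ 2 + 22 * ((a : ℚ) / (e : ℚ) ^ 2) + 125) := by
    rw [hQdef]; push_cast; field_simp
  push_cast at htpos hQpos
  have hq5 : ∀ q : ℕ, q.Prime → (q : ℤ) ∣ a → (q : ℤ) ∣ Q → q = 5 := by
    intro q hq hqa hqQ
    have hqe : ¬ (q : ℤ) ∣ e ^ 2 := fun h' =>
      (Nat.prime_iff_prime_int.1 hq).not_unit (hcop.isUnit_of_dvd' hqa h')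
    have h125 : (q : ℤ) ∣ 125 * (e ^ 2) ^ 2 := by
      have h' := dvd_sub hqQ (dvd_add (dvd_pow hqa two_ne_zero) ((hqa.mul_left 22).mul_right (e ^ 2)))
      have e1 : 125 * (e ^ 2) ^ 2 = Q - (a ^ 2 + 22 * a * e ^ 2) := by rw [hQdef]; ring
      rw [e1]; exact h'
    rcases (Nat.prime_iff_prime_int.1 hq).dvd_or_dvd h125 with h' | h'
    · have : (q : ℤ) ∣ 5 := (Nat.prime_iff_prime_int.1 hq).dvd_of_dvd_pow (n := 3) (by norm_num; exact h')
      exact (Nat.prime_dvd_prime_iff_eq hq Nat.prime_five).1 (by exact_mod_cast this)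
    · exact absurd ((Nat.prime_iff_prime_int.1 hq).dvd_of_dvd_pow h') hqe
  rcases split_five ha hR' hq5 with ⟨u, v, hau, hQv⟩ | ⟨u, v, hau, hQv⟩
  · refine hQ ((a : ℚ) / (e : ℚ) ^ 2) ?_ ⟨(u : ℚ) / e, ?_⟩ ⟨(v : ℚ) / (e : ℚ) ^ 2, ?_⟩
    · exact ne_of_gt (by push_cast at htpos; exact htpos)
    · push_cast [hau]; field_simp
    · rw [hQv] at hQ'
      push_cast at hQ' ⊢
      field_simp at hQ' ⊢
      linear_combination -hQ'
  · have hu : (u : ℚ) ≠ 0 := fun h' => by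
      have : u = 0 := by exact_mod_cast h'
      rw [this] at hau; omega
    refine hQ (((5 : ℚ) * e / u) ^ 2 / 1) (by positivity) ⟨(5 : ℚ) * e / u, by ring⟩
      ⟨5 * (5 * (v : ℚ)) / (5 * u ^ 2), ?_⟩
    have hQ2 : (5 : ℚ) * (v : ℚ) ^ 2 = ((5 * (u : ℚ) ^ 2) ^ 2 + 22 * (5 * u ^ 2) * e ^ 2 + 125 * e ^ 4) := by
      have := congrArg (fun z : ℤ => (z : ℚ)) hQv
      rw [hQdef, hau] at this
      push_cast at this
      linear_combination -this
    field_simp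
    linear_combination (-5 : ℚ) * hQ2

end FLTAgent.SW2
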